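import Fermat.Agent.JacCompare.Faithful
import Fermat.Agent.HeckeCommute

/-!
# Faithfulness of the Hecke action on the torsion of `J₀(N)`, unconditionally

`HeckeDatum.JacobianFaithful` holds for every level and prime, the Hecke operators on `J₀(N)`
commuting with each other.
-/

set_option autoImplicit false

noncomputable section

namespace Fermat.Agent.JacCompare

/-- The Hecke action on the `p`-power torsion of `J₀(N)` is the one on cusp forms, unconditionally. -/
theorem jacobianFaithful_all {N : ℕ} [NeZero N] {S : Set ℕ}
    (hNS : ∀ q : ℕ, q.Prime → q ∣ N → q ∈ S) {p : ℕ} (hp : p.Prime) :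
    HeckeDatum.JacobianFaithful p hNS :=
  jacobianFaithful hNS hp (HeckeCommute.heckeOperatorsCommuteBar N)

end Fermat.Agent.JacCompare
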