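import Fermat.Agent.JacCompare.HeckeClass
import Fermat.Agent.KummerDivisor.Kummer
import Fermat.Agent.KummerES.HeckeWeak

/-!
# Hecke equivariance of the classes of parabolic characters

`T_ℓ` sends the class of `χ` to the class of the transfer of `χ`; choices of classes for all
parabolic characters form a homomorphism compatible with the transfers.
-/

set_option autoImplicit false

noncomputable section

open UpperHalfPlane CongruenceSubgroup AlgebraicCurve ModularCurve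
open ModularCurve.Period (IsParabolicHom parabolicHoms)
open scoped MatrixGroups Manifold

namespace Fermat.Agent.JacCompare

open Fermat.Agent.KummerDivisor Fermat.Agent.HeckeLattice

variable {N : ℕ} [NeZero N] {ι : AlgebraicClosure ℚ →+* ℂ} {P : ℕ} [NeZero P]
  {χ : Additive (Gamma0 N) →+ ZMod P}

/-- `T_ℓ` of the class of `χ` is the class of the transfer of `χ`. -/
theorem isKummerClass_hecke {x : JZero N} (ℓ : Nat.Primes) (hℓN : ¬ (ℓ : ℕ) ∣ N)
    (hx : IsKummerClass ι χ x) :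
    haveI : Fact (ℓ : ℕ).Prime := ⟨ℓ.2⟩
    IsKummerClass ι ((gamma0System N (ℓ : ℕ) hℓN).transfer χ) (heckeOperatorBar N ℓ x) := by
  have : Fact (ℓ : ℕ).Prime := ⟨ℓ.2⟩
  obtain ⟨g, h, D, rfl, hD⟩ := hx
  set f : KummerES.weak (Gamma0 N) N ι.range := ⟨g ^ P, h.pow_mem⟩
  have hd : 6 * N ≠ 0 := mul_ne_zero (by norm_num) (NeZero.ne N)
  obtain ⟨D', h1, -, h2⟩ := exists_isKummerDiv_heckeWeak N ℓ hℓN ι (dvd_refl N) hd f D
    ⟨h.fn_ne_zero, hD⟩
  have hK : KummerES.IsKummer N P χ g :=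
    ⟨h.ne_zero, h.holo, h.comp_eq, weak_gamma0_le N ι h.pow_mem⟩
  have hK' := KummerES.isKummer_heckeProd_self (KummerES.isStandard_gamma0 hℓN)
    (gamma_le_gamma0 N) hK
  have hpow : (ModularAnalytic.toField N N ι (heckeWeak hℓN ι (dvd_refl N) f) :
      modularFunctionFieldBar N) ≠ 0 ∧
      (heckeWeak hℓN ι (dvd_refl N) f : ℍ → ℂ) =
        KummerES.heckeProd (gamma0System N (ℓ : ℕ) hℓN) g ^ P := by
    refine ⟨fun h0 => ?_, KummerES.heckeProd_pow _ g P⟩
    have := congrArg Subtype.val (ModularAnalytic.toField_injective N N ι (h0.trans (map_zero _).symm))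
    exact hK'.ne_zero (funext fun τ => eq_zero_of_pow_eq_zero
      (congrFun ((KummerES.heckeProd_pow _ g P).symm.trans this) τ))
  have hroot : IsAlgRoot ι ((gamma0System N (ℓ : ℕ) hℓN).transfer χ)
      (KummerES.heckeProd (gamma0System N (ℓ : ℕ) hℓN) g) :=
    ⟨hK'.ne_zero, hK'.holo, hK'.comp_eq, hpow.2 ▸ (heckeWeak hℓN ι (dvd_refl N) f).2⟩
  refine ⟨_, hroot, D', h1, fun v => ?_⟩
  rw [h2 v]
  congr 2
  exact congrArg _ (Subtype.ext hpow.2)

/-- Classes of roots for all parabolic characters form a homomorphism compatible with the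
transfers, with kernel killed by `6 N`. -/
theorem exists_divisorMap
    (hroot : ∀ χ : ↥(parabolicHoms ℤ (Gamma0 N) (ZMod P)), ∃ g, IsAlgRoot ι χ.1 g) :
    ∃ Φ : ↥(parabolicHoms ℤ (Gamma0 N) (ZMod P)) →+ JZero N,
      (∀ χ, IsKummerClass ι χ.1 (Φ χ)) ∧
      (∀ (ℓ : Nat.Primes) (hℓN : ¬ (ℓ : ℕ) ∣ N) (χ ψ : ↥(parabolicHoms ℤ (Gamma0 N) (ZMod P))),
        (haveI := Fact.mk ℓ.2; (gamma0System N (ℓ : ℕ) hℓN).transfer χ.1) = ψ.1 →
          Φ ψ = heckeOperatorBar N ℓ (Φ χ)) ∧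
      ∀ χ, Φ χ = 0 → (6 * N) • χ = 0 := by
  have hex : ∀ χ : ↥(parabolicHoms ℤ (Gamma0 N) (ZMod P)), ∃ x, IsKummerClass ι χ.1 x := fun χ =>
    let ⟨_, hg⟩ := hroot χ
    exists_isKummerClass hg χ.2
  choose F hF using hex
  let Φ : ↥(parabolicHoms ℤ (Gamma0 N) (ZMod P)) →+ JZero N :=
    AddMonoidHom.mk' F fun χ ψ => (hF (χ + ψ)).unique ((hF χ).add (hF ψ))
  refine ⟨Φ, hF, fun ℓ hℓN χ ψ h => ?_, fun χ h => Subtype.ext ?_⟩
  · have h' := isKummerClass_hecke ℓ hℓN (hF χ)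
    rw [h] at h'
    exact (hF ψ).unique h'
  · have h' := hF χ
    rw [show F χ = 0 from h] at h'
    rw [Submodule.coe_smul_of_tower]
    exact h'.nsmul_eq_zero

end Fermat.Agent.JacCompare
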