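import Fermat.Agent.JacCompare.Compare

/-!
# Galois equivariance of the comparison map

The map from parabolic characters `Γ₀(N) → ℤ/P` to `J₀(N)` intertwines the Galois action read on
the coefficients of roots with the Galois action on `J₀(N)`.
-/

set_option autoImplicit false

noncomputable section

open CongruenceSubgroup ModularCurve
open scoped MatrixGroups

namespace Fermat.Agent.JacCompare

open Fermat.Agent.KummerDivisor Fermat.Agent.HeckeLattice
open HeckeDatum (ParChar)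

local notation "Qbar" => AlgebraicClosure ℚ
local notation "Gal" => AlgebraicClosure ℚ ≃ₐ[ℚ] AlgebraicClosure ℚ

variable (N : ℕ) [NeZero N] (P : ℕ) [NeZero P]

/-- Roots of a character and of its conjugate with conjugate powers. -/
theorem exists_conj_algRoot (σ : Gal) (χ : ParChar N P) :
    ∃ (g g' : UpperHalfPlane → ℂ) (h : IsAlgRoot complexEmbedding.toRingHom χ.1 g)
      (h' : IsAlgRoot complexEmbedding.toRingHom
        (KummerES.parRep (KummerES.isDiagStable_gamma0 N) σ χ).1 g'),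
      (h'.fn : LaurentSeries Qbar) = coeffMap (σ : Qbar →+* Qbar) h.fn := by
  obtain ⟨g, h⟩ := exists_isAlgRoot N P χ
  have hg : KummerES.IsKummer N P χ.1 g :=
    ⟨h.ne_zero, h.holo, h.comp_eq, weak_gamma0_le N _ h.pow_mem⟩
  obtain ⟨σ', hσ'⟩ := KummerES.exists_aut_extend_galois σ
  obtain ⟨c, hc, hσc⟩ := KummerES.exists_pow_zetaC N (σ' : ℂ →+* ℂ)
  obtain ⟨g', hg', hconj⟩ :=
    KummerES.exists_conj_root (KummerES.isDiagStable_gamma0 N) dvd_rfl hσ' hσc hg
  have hσB : ∀ z ∈ complexEmbedding.toRingHom.range, σ' z ∈ complexEmbedding.toRingHom.range := by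
    rintro _ ⟨x, rfl⟩
    exact ⟨σ x, (hσ' x).symm⟩
  have hg'B : g' ^ P ∈ KummerES.weak (Gamma N) N complexEmbedding.toRingHom.range := by
    refine ⟨hg'.pow_mem.1, hg'.pow_mem.2.1, fun δ => ?_⟩
    obtain ⟨δ', hδ'⟩ := KummerES.exists_twistRel_of_coprime hc δ
    refine ⟨_, fun i => ?_, KummerES.hasExp_expansion hg'.pow_mem δ⟩
    rw [hconj.2.2 δ δ' hδ', coeffMap_coeff]
    exact hσB _ (KummerES.expansion_mem h.pow_mem δ' i)
  have h' : IsAlgRoot complexEmbedding.toRingHom
      (KummerES.parRep (KummerES.isDiagStable_gamma0 N) σ χ).1 g' :=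
    ⟨hg'.ne_zero, hg'.holo, hg'.comp_eq,
      mem_weak_width dvd_rfl (fun γ hγ => hg'.pow_comp_eq hγ) hg'B⟩
  refine ⟨g, g', h, h', ModularAnalytic.toField_eq N N complexEmbedding.toRingHom ?_⟩
  have hs := KummerES.hasExp_expansion h'.pow_mem 1
  rw [KummerES.comp_one] at hs
  refine (ModularAnalytic.hasExp_of_kummer hs).congr_series ?_
  rw [hconj.expansion_eq, ← ModularAnalytic.qExpand_coeffMap_toField N N
    complexEmbedding.toRingHom ⟨g ^ P, h.pow_mem⟩, ModularFunctionField.coeffMap_qExpand',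
    coeffMap_coeffMap, coeffMap_coeffMap]
  congr 1
  exact coeffMap_congr (RingHom.ext fun x => hσ' x) _

/-- The comparison map with its Galois equivariance. -/
theorem exists_galoisCompareMap :
    ∃ Φ : ParChar N P →+ JZero N,
      (∀ (ℓ : Nat.Primes) (hℓN : ¬ (ℓ : ℕ) ∣ N) (χ ψ : ParChar N P),
        (haveI := Fact.mk ℓ.2; (gamma0System N (ℓ : ℕ) hℓN).transfer χ.1) = ψ.1 →
          Φ ψ = heckeOperatorBar N ℓ (Φ χ)) ∧
      (∀ (σ : Gal) (χ : ParChar N P),
        Φ (KummerES.parRep (KummerES.isDiagStable_gamma0 N) σ χ) = σ • Φ χ) ∧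
      ∀ χ, Φ χ = 0 → (6 * N) • χ = 0 := by
  obtain ⟨Φ, hΦ, hT, hker⟩ := exists_divisorMap (exists_isAlgRoot N P)
  refine ⟨Φ, hT, fun σ χ => ?_, hker⟩
  obtain ⟨g, g', h, h', hconj⟩ := exists_conj_algRoot N P σ χ
  exact (hΦ _).unique (IsKummerClass.smul (h₁ := h) (h₂ := h') hconj (hΦ χ) χ.2)

end Fermat.Agent.JacCompare
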