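import Fermat.Agent.JacCompare.Rank
import Fermat.Agent.JacCompare.Galois
import Fermat.Agent.HeckeDatum.JacobianInput
import Fermat.Agent.CurveBaseChange.Reduction
import Fermat.Agent.CurveJacobian.Torsion
import Fermat.Agent.ModCurveGenus.Genus
import Fermat.Agent.S20

/-!
# Faithfulness of the Hecke action on the torsion of `J₀(N)`

`J₀(N)[p ^ k]` has `p ^ (rk k)` elements and contains, up to a bounded index, the image of the
parabolic characters.  Hence a formal Hecke operator vanishing on cusp forms kills it, it has a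
finite Galois level, and annihilators are small: this is `HeckeDatum.JacobianFaithful`.
-/

set_option autoImplicit false

noncomputable section

open CongruenceSubgroup ModularCurve AlgebraicCurve
open scoped MatrixGroups

namespace Fermat.Agent.JacCompare

open Fermat.Agent.HeckeLattice
open HeckeDatum (ParChar parTransfer AwayPoly toHeckeAlg evalForms JacobianFaithful)
open KummerES.Tate (rk)

local notation "Qbar" => AlgebraicClosure ℚ
local notation "Gal" => AlgebraicClosure ℚ ≃ₐ[ℚ] AlgebraicClosure ℚ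

variable {N : ℕ} [NeZero N]

/-- The elements of `J₀(N)` killed by `n`. -/
def torsBy (N : ℕ) [NeZero N] (n : ℕ) : AddSubgroup (JZero N) :=
  (nsmulAddMonoidHom (α := JZero N) n).ker

/-- Membership in the `n`-torsion. -/
theorem mem_torsBy {n : ℕ} {x : JZero N} : x ∈ torsBy N n ↔ n • x = 0 := Iff.rfl

/-- The number of `n`-torsion points of `J₀(N)`. -/
theorem card_torsBy (N : ℕ) [NeZero N] (n : ℕ) (hn : 0 < n) :
    Nat.card (torsBy N n) = n ^ rk N := by
  have := ModCurveGenus.isFunctionField_FN N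
  have h := CurveBaseChange.natCard_torsion_eq (K := Qbar) (F := modularFunctionFieldBar N)
    (fun F _ _ _ _ m hm => CurveJacobian.natCard_torsion F m hm) n hn
  have hg : genusFF Qbar (modularFunctionFieldBar N)
      = Module.finrank ℂ (CuspForm (Gamma0 N) 2) := by
    have h1 := ModCurveGenus.genusFF_FN N
    rw [← S20.result N] at h1
    exact_mod_cast h1
  rw [rk_eq N, ← hg, ← h]
  exact Nat.card_congr (Equiv.subtypeEquivRight fun x => by
    rw [mem_torsBy, Pic0.mem_torsion, natCast_zsmul])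

/-- Multiplication by `p ^ v` maps `J[p ^ (k + v)]` onto `J[p ^ k]`. -/
theorem exists_pow_nsmul_eq {p : ℕ} (hp : p.Prime) (k v : ℕ) {x : JZero N} (hx : p ^ k • x = 0) :
    ∃ y : JZero N, p ^ (k + v) • y = 0 ∧ p ^ v • y = x := by
  let f : torsBy N (p ^ (k + v)) →+ torsBy N (p ^ k) :=
    ((nsmulAddMonoidHom (α := JZero N) (p ^ v)).comp (torsBy N (p ^ (k + v))).subtype).codRestrict _
      fun y => by
        rw [mem_torsBy, AddMonoidHom.comp_apply, AddSubgroup.coe_subtype, nsmulAddMonoidHom_apply,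
          smul_smul, ← pow_add]
        exact y.2
  have hker : Nat.card f.ker ≤ Nat.card (torsBy N (p ^ v)) := by
    have : Finite (torsBy N (p ^ v)) :=
      Nat.finite_of_card_ne_zero (by
        rw [card_torsBy N _ (pow_pos hp.pos v)]; exact pow_ne_zero _ (pow_ne_zero _ hp.ne_zero))
    exact Nat.card_le_card_of_injective
      (fun y => (⟨(y.1 : JZero N), congrArg Subtype.val (y.2 : f y.1 = 0)⟩ : torsBy N (p ^ v)))
      fun a b h => Subtype.ext (Subtype.ext (congrArg (fun z : torsBy N (p ^ v) => (z : JZero N)) h))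
  have hmul : Nat.card f.ker * Nat.card f.range = Nat.card (torsBy N (p ^ (k + v))) := by
    rw [← Nat.card_congr (QuotientAddGroup.quotientKerEquivRange f).toEquiv, mul_comm,
      ← AddSubgroup.card_eq_card_quotient_mul_card_addSubgroup]
  have hfin : Finite (torsBy N (p ^ k)) :=
    Nat.finite_of_card_ne_zero (by
      rw [card_torsBy N _ (pow_pos hp.pos k)]; exact pow_ne_zero _ (pow_ne_zero _ hp.ne_zero))
  rw [card_torsBy N _ (pow_pos hp.pos _)] at hmul
  rw [card_torsBy N _ (pow_pos hp.pos v)] at hker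
  have htop : f.range = ⊤ := by
    refine AddSubgroup.eq_top_of_le_card _ ?_
    rw [card_torsBy N _ (pow_pos hp.pos k)]
    refine Nat.le_of_mul_le_mul_left ?_ (pow_pos (pow_pos hp.pos v) (rk N))
    calc (p ^ v) ^ rk N * (p ^ k) ^ rk N = (p ^ (k + v)) ^ rk N := by
          rw [← mul_pow, ← pow_add, add_comm]
      _ = Nat.card f.ker * Nat.card f.range := hmul.symm
      _ ≤ (p ^ v) ^ rk N * Nat.card f.range := Nat.mul_le_mul_right _ hker
  obtain ⟨y, hy⟩ : (⟨x, hx⟩ : torsBy N (p ^ k)) ∈ f.range := htop ▸ AddSubgroup.mem_top _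
  exact ⟨y, y.2, congrArg Subtype.val hy⟩

/-- A fixed multiple of the `n`-torsion lies in the image of any map from parabolic characters
with kernel killed by `d`. -/
theorem exists_nsmul_mem_image {d : ℕ} (hd : d ≠ 0) :
    ∃ m : ℕ, m ≠ 0 ∧ ∀ (n : ℕ) [NeZero n] (Φ : ParChar N n →+ JZero N),
      (∀ χ, Φ χ = 0 → d • χ = 0) → ∀ x : JZero N, n • x = 0 → ∃ χ, Φ χ = m • x := by
  obtain ⟨B, hB0, hB⟩ := exists_card_le_of_nsmul N hd
  refine ⟨B.factorial, Nat.factorial_ne_zero B, fun n _ Φ hΦ x hx => ?_⟩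
  obtain ⟨hfin, hcard⟩ := pow_rk_le_card N n
  have hn : 0 < n := Nat.pos_of_ne_zero (NeZero.ne n)
  have hnχ : ∀ χ : ParChar N n, n • χ = 0 := fun χ => Subtype.ext (AddMonoidHom.ext fun γ => by
    rw [Submodule.coe_smul_of_tower, AddMonoidHom.nsmul_apply, nsmul_eq_mul, ZMod.natCast_self,
      zero_mul]
    rfl)
  let f : ParChar N n →+ torsBy N n :=
    Φ.codRestrict _ fun χ => by rw [mem_torsBy, ← map_nsmul, hnχ, map_zero]
  have hker : Nat.card f.ker ≤ B := hB n f.ker fun χ hχ => hΦ χ (congrArg Subtype.val hχ)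
  have hfinT : Finite (torsBy N n) := Nat.finite_of_card_ne_zero (by
    rw [card_torsBy N n hn]; exact pow_ne_zero _ hn.ne')
  have hmul : Nat.card f.ker * Nat.card f.range = Nat.card (ParChar N n) := by
    rw [← Nat.card_congr (QuotientAddGroup.quotientKerEquivRange f).toEquiv, mul_comm,
      ← AddSubgroup.card_eq_card_quotient_mul_card_addSubgroup]
  have hle : f.range.index ≤ B := by
    have h1 : Nat.card f.range * f.range.index = Nat.card (torsBy N n) :=
      AddSubgroup.card_mul_index _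
    rw [card_torsBy N n hn] at h1
    refine le_trans (Nat.le_of_mul_le_mul_left ?_ (Nat.card_pos (α := f.range))) hker
    rw [h1, mul_comm (Nat.card f.range), hmul]
    exact hcard
  obtain ⟨c, hc⟩ : f.range.index ∣ B.factorial :=
    Nat.dvd_factorial (Nat.pos_of_ne_zero AddSubgroup.index_ne_zero_of_finite) hle
  obtain ⟨χ, hχ⟩ : B.factorial • (⟨x, hx⟩ : torsBy N n) ∈ f.range := by
    rw [hc, mul_comm, mul_smul]
    exact AddSubgroup.nsmul_mem _ (f.range.nsmul_index_mem _) c
  exact ⟨χ, congrArg Subtype.val hχ⟩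

/-- A natural number killing a `p`-power torsion element may be replaced by its `p`-part. -/
theorem ordProj_nsmul_eq_zero {M : Type*} [AddCommGroup M] {p a k : ℕ} (hp : p.Prime) (ha : a ≠ 0)
    {z : M} (hak : a • z = 0) (hk : p ^ k • z = 0) : p ^ a.factorization p • z = 0 := by
  obtain ⟨i, -, hi⟩ := (Nat.dvd_prime_pow hp).mp (addOrderOf_dvd_of_nsmul_eq_zero hk)
  refine addOrderOf_dvd_iff_nsmul_eq_zero.mp (hi ▸ pow_dvd_pow p ?_)
  exact (hp.pow_dvd_iff_le_factorization ha).mp (hi ▸ addOrderOf_dvd_of_nsmul_eq_zero hak)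

variable {S : Set ℕ} (hNS : ∀ q : ℕ, q.Prime → q ∣ N → q ∈ S)

/-- Forgetting the order of the formal operators. -/
def commHom (S : Set ℕ) : FreeHecke S →+* AwayPoly S :=
  (FreeAlgebra.lift ℤ fun ℓ : AwayIdx S => (MvPolynomial.X ℓ : AwayPoly S)).toRingHom

theorem commHom_surjective (S : Set ℕ) : Function.Surjective (commHom S) := fun P => by
  induction P using MvPolynomial.induction_on with
  | C a => exact ⟨algebraMap ℤ _ a, by simp [commHom]⟩
  | add p q hp hq =>
    obtain ⟨a, rfl⟩ := hp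
    obtain ⟨b, rfl⟩ := hq
    exact ⟨a + b, map_add _ a b⟩
  | mul_X p i hp =>
    obtain ⟨a, rfl⟩ := hp
    exact ⟨a * FreeAlgebra.ι ℤ i, by rw [map_mul]; simp [commHom]⟩

theorem evalForms_commHom (Q : FreeHecke S) : evalForms hNS (commHom S Q) = evalFree hNS Q := by
  induction Q using FreeAlgebra.induction with
  | grade0 r => simp [commHom]
  | grade1 ℓ => simp [commHom, evalForms, evalFree]
  | add a b ha hb => rw [map_add, map_add, map_add, ha, hb]
  | mul a b ha hb => rw [map_mul, map_mul, map_mul, ha, hb]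

/-- The operator of `J₀(N)` of a formal Hecke operator. -/
theorem toHeckeAlg_commHom_smul (hcomm : HeckeOperatorsCommuteBar N) (Q : FreeHecke S) :
    ∀ x : JZero N, (letI := heckeModuleBar N; toHeckeAlg S (commHom S Q) • x) =
      FreeAlgebra.lift ℤ (fun ℓ : AwayIdx S => heckeOperatorBar N ℓ.1) Q x := by
  intro x
  rw [heckeModuleBar_smul_def hcomm]
  suffices h : heckeEvalBar hcomm (toHeckeAlg S (commHom S Q)) =
      FreeAlgebra.lift ℤ (fun ℓ : AwayIdx S => heckeOperatorBar N ℓ.1) Q by rw [h]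
  induction Q using FreeAlgebra.induction with
  | grade0 r => simp [commHom]
  | grade1 ℓ =>
    simp only [commHom, toHeckeAlg, AlgHom.toRingHom_eq_coe, RingHom.coe_coe,
      FreeAlgebra.lift_ι_apply, MvPolynomial.rename_X]
    exact heckeEvalBar_heckeGen hcomm ℓ.1
  | add a b ha hb => simp only [map_add, ha, hb]
  | mul a b ha hb => simp only [map_mul, ha, hb]

/-- A formal operator vanishing on cusp forms kills the `p`-power torsion of `J₀(N)`. -/
theorem lift_heckeOperatorBar_eq_zero {p : ℕ} (hp : p.Prime) {Q : FreeHecke S}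
    (hQ : evalFree hNS Q = 0) (k : ℕ) {x : JZero N} (hx : p ^ k • x = 0) :
    FreeAlgebra.lift ℤ (fun ℓ : AwayIdx S => heckeOperatorBar N ℓ.1) Q x = 0 := by
  obtain ⟨e, he, hkill⟩ := exists_nsmul_lift_eq_zero (N := N) hNS
  obtain ⟨m, hm, himg⟩ := exists_nsmul_mem_image (N := N)
    (mul_ne_zero (by norm_num : (6 : ℕ) ≠ 0) (NeZero.ne N))
  set v := (e * m).factorization p
  obtain ⟨y, hy, rfl⟩ := exists_pow_nsmul_eq hp k v hx
  have : NeZero (p ^ (k + v)) := ⟨pow_ne_zero _ hp.ne_zero⟩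
  obtain ⟨Φ, hT, hker⟩ := exists_compareMap_lift N (p ^ (k + v)) hNS
  obtain ⟨χ, hχ⟩ := himg _ Φ hker y hy
  rw [map_nsmul]
  refine ordProj_nsmul_eq_zero hp (mul_ne_zero he hm) ?_ (k := k + v) (by
    rw [← map_nsmul, hy, map_zero])
  rw [mul_smul, ← map_nsmul, ← hχ, ← hT, ← map_nsmul, hkill Q hQ, map_zero]

/-- The `p`-power torsion has a finite Galois level. -/
theorem exists_finiteLevel {p : ℕ} (hp : p.Prime) (k : ℕ) :
    ∃ L : IntermediateField ℚ Qbar, FiniteDimensional ℚ L ∧
      ∀ σ : Gal, (∀ y ∈ L, σ y = y) → ∀ x : JZero N, p ^ k • x = 0 → σ • x = x := by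
  obtain ⟨m, hm, himg⟩ := exists_nsmul_mem_image (N := N)
    (mul_ne_zero (by norm_num : (6 : ℕ) ≠ 0) (NeZero.ne N))
  set v := m.factorization p
  have : NeZero (p ^ (k + v)) := ⟨pow_ne_zero _ hp.ne_zero⟩
  obtain ⟨Φ, -, hσ, hker⟩ := exists_galoisCompareMap N (p ^ (k + v))
  obtain ⟨L, hL, hfix⟩ := KummerES.parRep_finiteLevel (n := p ^ (k + v))
    (KummerES.isDiagStable_gamma0 N)
  refine ⟨L, hL, fun σ hs x hx => ?_⟩
  obtain ⟨y, hy, rfl⟩ := exists_pow_nsmul_eq hp k v hx
  obtain ⟨χ, hχ⟩ := himg _ Φ hker y hy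
  have hga : ∀ (n : ℕ) (z : JZero N), n • (σ • z) = σ • (n • z) := fun n z =>
    (map_nsmul (DistribSMul.toAddMonoidHom (JZero N) σ) n z).symm
  have h0 : m • (σ • y - y) = 0 := by
    rw [nsmul_sub, hga, ← hχ, ← hσ, hfix σ hs, sub_eq_zero]
    rfl
  have h1 : p ^ (k + v) • (σ • y - y) = 0 := by
    rw [nsmul_sub, hga, hy, sub_zero]
    exact (DistribSMul.toAddMonoidHom (JZero N) σ).map_zero
  have h2 := ordProj_nsmul_eq_zero hp hm h0 h1
  rw [nsmul_sub, hga, sub_eq_zero] at h2
  exact h2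

/-- Annihilators of the torsion of `J₀(N)` are small in the Hecke algebra of cusp forms. -/
theorem exists_forall_dvd_of_torsion {p : ℕ} (hp : p.Prime) (j : ℕ) :
    ∃ k : ℕ, ∀ Q : FreeHecke S,
      (∀ x : JZero N, p ^ k • x = 0 →
        FreeAlgebra.lift ℤ (fun ℓ : AwayIdx S => heckeOperatorBar N ℓ.1) Q x = 0) →
      ∃ u : CuspForm.heckeAlgebra N 2 S,
        evalFree hNS Q = (p : CuspForm.heckeAlgebra N 2 S) ^ j * u := by
  obtain ⟨k, hk⟩ := exists_forall_dvd_evalFree hNS hp.ne_zero (j + (6 * N).factorization p)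
  refine ⟨k, fun Q hQ => ?_⟩
  have : NeZero (p ^ k) := ⟨pow_ne_zero _ hp.ne_zero⟩
  obtain ⟨Φ, hT, hker⟩ := exists_compareMap_lift N (p ^ k) hNS
  obtain ⟨u, hu⟩ := hk (((6 * N : ℕ) : FreeHecke S) * Q) fun χ hχ => by
    set χ' : ParChar N (p ^ k) := ⟨χ, hχ⟩
    have hn : p ^ k • χ' = 0 := Subtype.ext (AddMonoidHom.ext fun γ => by
      rw [Submodule.coe_smul_of_tower, AddMonoidHom.nsmul_apply, nsmul_eq_mul, ZMod.natCast_self,
        zero_mul]
      rfl)
    have h0 := hker (FreeAlgebra.lift ℤ (parTransfer hNS (p ^ k)) Q χ') (by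
      rw [hT]
      exact hQ _ (by rw [← map_nsmul, hn, map_zero]))
    have h1 := congrArg Subtype.val h0
    rw [Submodule.coe_smul_of_tower, HeckeDatum.coe_lift_parTransfer] at h1
    rw [map_mul, map_natCast, Module.End.mul_apply, Module.End.natCast_apply]
    exact h1
  rw [map_mul, map_natCast] at hu
  have := KummerDivisor.isAddTorsionFree_heckeAlgebra N S
  exact KummerDivisor.dvd_pow_of_natCast_mul hp (mul_ne_zero (by norm_num) (NeZero.ne N)) j hu

/-- **The Hecke action on the torsion of `J₀(N)` is the one on cusp forms.** -/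
theorem jacobianFaithful {p : ℕ} (hp : p.Prime) (hcomm : HeckeOperatorsCommuteBar N) :
    JacobianFaithful p hNS where
  smul_eq_zero P hP k x hx := by
    obtain ⟨Q, rfl⟩ := commHom_surjective S P
    rw [toHeckeAlg_commHom_smul hcomm]
    exact lift_heckeOperatorBar_eq_zero hNS hp (by rw [← evalForms_commHom, hP]) k hx
  finiteLevel k := exists_finiteLevel hp k
  ann_le j := by
    obtain ⟨k, hk⟩ := exists_forall_dvd_of_torsion hNS hp j
    refine ⟨k, fun P hP => ?_⟩
    obtain ⟨Q, rfl⟩ := commHom_surjective S P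
    obtain ⟨u, hu⟩ := hk Q fun x hx => by rw [← toHeckeAlg_commHom_smul hcomm]; exact hP x hx
    exact ⟨u, by rw [evalForms_commHom, hu]⟩

end Fermat.Agent.JacCompare
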