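import Fermat.Agent.JacCompare.HeckeField
import Fermat.Prelude.Def_ModularCurve_HeckeModule

/-!
# Hecke operators on divisor classes of Kummer roots

`IsKummerDiv n c f D` says `n D = c div f`.  The operator `T_ℓ` of `J₀(N)` sends the class of such a
`D` to the class of some `D'` with `n D' = c div (∏ₓ f ∘ β x)`; for a Kummer root the latter
function is the power of a root with the transferred multiplier
(`KummerES.heckeProd_comp`, `KummerES.heckeProd_pow`).
-/

set_option autoImplicit false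

noncomputable section

open AlgebraicCurve ModularCurve

namespace Fermat.Agent.JacCompare

open Fermat.Agent.ModularAnalytic

/-- `n D = c div f`. -/
def IsKummerDiv {K F : Type*} [Field K] [Field F] [Algebra K F] (n c : ℕ) (f : F)
    (D : Divisor K F) : Prop :=
  f ≠ 0 ∧ ∀ v : Place K F, (n : ℤ) * D v = (c : ℤ) * v.ord f

section

variable {K F : Type*} [Field K] [Field F] [Algebra K F]

/-- A function with a Kummer divisor has a divisor. -/
theorem IsKummerDiv.exists_divisor {n c : ℕ} (hc : c ≠ 0) {f : F} {D : Divisor K F}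
    (h : IsKummerDiv n c f D) : ∃ E : Divisor K F, ∀ v, E v = v.ord f := by
  classical
  refine ⟨Finsupp.onFinset D.support (fun v => v.ord f) fun v hv => ?_, fun v => rfl⟩
  rw [Finsupp.mem_support_iff]
  intro h0
  have := h.2 v
  rw [h0, mul_zero] at this
  exact hv ((mul_eq_zero.mp this.symm).resolve_left (by exact_mod_cast hc))

end

theorem heckeNorm_ne_zero (N ℓ : ℕ) [NeZero N] [NeZero ℓ]
    {f : modularFunctionFieldBar N} (hf : f ≠ 0) :
    Hecke.heckeNorm (AlgebraicClosure ℚ) N ℓ f ≠ 0 := by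
  let := algebraAlong (heckeAlphaBar (AlgebraicClosure ℚ) N ℓ)
  have : Module.Finite (modularFunctionFieldBar N)
      (laurentBaseChange (AlgebraicClosure ℚ) (modularFunctionFieldFull (N * ℓ))) :=
    Hecke.finiteAlong_of_isFunctionField (heckeAlphaBar (AlgebraicClosure ℚ) N ℓ)
  exact Algebra.norm_ne_zero_iff.mpr
    ((map_ne_zero_iff _ (heckeBetaBar (AlgebraicClosure ℚ) N ℓ).toRingHom.injective).mpr hf)

/-- `T_ℓ` on the class of `D` with `n D = c div f`. -/
theorem exists_isKummerDiv_heckeNorm (N : ℕ) [NeZero N] (ℓ : Nat.Primes) {n c : ℕ} (hc : c ≠ 0)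
    {f : modularFunctionFieldBar N}
    (D : Divisor.degZero (K := AlgebraicClosure ℚ) (F := modularFunctionFieldBar N))
    (hD : IsKummerDiv n c f (D : Divisor (AlgebraicClosure ℚ) (modularFunctionFieldBar N))) :
    haveI : NeZero (ℓ : ℕ) := ⟨ℓ.2.ne_zero⟩
    ∃ D' : Divisor.degZero (K := AlgebraicClosure ℚ) (F := modularFunctionFieldBar N),
      heckeOperatorBar N ℓ (Pic0.mk D) = Pic0.mk D' ∧
      IsKummerDiv n c (Hecke.heckeNorm (AlgebraicClosure ℚ) N (ℓ : ℕ) f)
        (D' : Divisor (AlgebraicClosure ℚ) (modularFunctionFieldBar N)) := by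
  have : NeZero (ℓ : ℕ) := ⟨ℓ.2.ne_zero⟩
  obtain ⟨hα, hβ, hP, hfin, hFI, hN, hop⟩ :=
    Hecke.heckeOperatorAlong_eq_pic0 (AlgebraicClosure ℚ) N (ℓ : ℕ)
  refine ⟨Pic0.degZeroCorrespondence (heckeBetaBar (AlgebraicClosure ℚ) N (ℓ : ℕ))
    (heckeAlphaBar (AlgebraicClosure ℚ) N (ℓ : ℕ)) hβ hα hFI D, ?_,
    heckeNorm_ne_zero N ℓ hD.1, fun v => ?_⟩
  · rw [heckeOperatorBar_apply, hop]
    rfl
  · obtain ⟨E, hE⟩ := hD.exists_divisor hc
    have heq : (n : ℤ) • (D : Divisor (AlgebraicClosure ℚ) (modularFunctionFieldBar N)) =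
        (c : ℤ) • E := Finsupp.ext fun w => by
      simp only [Finsupp.smul_apply, smul_eq_mul, hE w, hD.2 w]
    have := congrArg (fun Z => Z v) (congrArg (heckeDivBar hα hβ) heq)
    simp only [map_zsmul, Finsupp.smul_apply, smul_eq_mul] at this
    rw [Hecke.heckeDivBar_principal hα hβ hfin hN hD.1 hE v] at this
    exact this

/-- **Hecke equivariance.** If `n D = c div f` for a weakly holomorphic `f`, then `T_ℓ [D] = [D']`
with `n D' = c div (∏ₓ f ∘ β x)`. -/
theorem exists_isKummerDiv_heckeWeak (N : ℕ) [NeZero N] (ℓ : Nat.Primes) (hℓN : ¬ (ℓ : ℕ) ∣ N)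
    (ι : AlgebraicClosure ℚ →+* ℂ) {L : ℕ} [NeZero L] (hNL : N ∣ L) {n c : ℕ} (hc : c ≠ 0)
    (f : KummerES.weak (CongruenceSubgroup.Gamma0 N) L ι.range)
    (D : Divisor.degZero (K := AlgebraicClosure ℚ) (F := modularFunctionFieldBar N))
    (hD : IsKummerDiv n c (toField N L ι f : modularFunctionFieldBar N)
      (D : Divisor (AlgebraicClosure ℚ) (modularFunctionFieldBar N))) :
    haveI : Fact (ℓ : ℕ).Prime := ⟨ℓ.2⟩
    ∃ D' : Divisor.degZero (K := AlgebraicClosure ℚ) (F := modularFunctionFieldBar N),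
      heckeOperatorBar N ℓ (Pic0.mk D) = Pic0.mk D' ∧
      IsKummerDiv n c (toField N L ι (heckeWeak hℓN ι hNL f) : modularFunctionFieldBar N)
        (D' : Divisor (AlgebraicClosure ℚ) (modularFunctionFieldBar N)) := by
  have : Fact (ℓ : ℕ).Prime := ⟨ℓ.2⟩
  obtain ⟨D', h1, h2⟩ := exists_isKummerDiv_heckeNorm N ℓ hc D hD
  exact ⟨D', h1, by rwa [toField_heckeWeak_bar hℓN ι hNL f]⟩

end Fermat.Agent.JacCompare
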