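import Fermat.Agent.JacCompare.Equivariant
import Fermat.Agent.KummerES.ConjugateGlobal
import Fermat.Agent.KummerDivisor.Maps

/-!
# Parabolic characters and torsion of `J₀(N)`

For every `N` and `P` there is a homomorphism from parabolic characters `Γ₀(N) → ℤ/P` to `J₀(N)`
that turns transfers into Hecke operators and has kernel killed by `6 N`.
-/

set_option autoImplicit false

noncomputable section

open CongruenceSubgroup ModularCurve
open ModularCurve.Period (parabolicHoms)
open scoped MatrixGroups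

namespace Fermat.Agent.JacCompare

open Fermat.Agent.KummerDivisor Fermat.Agent.HeckeLattice
open HeckeDatum (ParChar parTransfer)

variable (N : ℕ) [NeZero N] (P : ℕ) [NeZero P]

/-- Every parabolic character has a root with algebraic power at level `N`. -/
theorem exists_isAlgRoot (χ : ParChar N P) :
    ∃ g, IsAlgRoot complexEmbedding.toRingHom χ.1 g := by
  obtain ⟨E, -, -, h⟩ := KummerES.exists_numberField_roots_all (n := P)
    (KummerES.isDiagStable_gamma0 N) N dvd_rfl
  obtain ⟨g, hg, hgE⟩ := h χ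
  refine ⟨g, hg.ne_zero, hg.holo, hg.comp_eq,
    mem_weak_width dvd_rfl (fun γ hγ => hg.pow_comp_eq hγ) (KummerES.weak_mono le_rfl ?_ hgE)⟩
  rintro _ ⟨x, -, rfl⟩
  exact ⟨x, rfl⟩

/-- Parabolic characters map to `J₀(N)`, transfers to Hecke operators, with kernel killed by
`6 N`. -/
theorem exists_compareMap :
    ∃ Φ : ParChar N P →+ JZero N,
      (∀ (ℓ : Nat.Primes) (hℓN : ¬ (ℓ : ℕ) ∣ N) (χ ψ : ParChar N P),
        (haveI := Fact.mk ℓ.2; (gamma0System N (ℓ : ℕ) hℓN).transfer χ.1) = ψ.1 →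
          Φ ψ = heckeOperatorBar N ℓ (Φ χ)) ∧
      ∀ χ, Φ χ = 0 → (6 * N) • χ = 0 := by
  obtain ⟨Φ, -, h⟩ := exists_divisorMap (exists_isAlgRoot N P)
  exact ⟨Φ, h⟩

/-- The maps commute with the action of formal Hecke operators away from `S`. -/
theorem exists_compareMap_lift {S : Set ℕ} (hNS : ∀ q : ℕ, q.Prime → q ∣ N → q ∈ S) :
    ∃ Φ : ParChar N P →+ JZero N,
      (∀ (Q : FreeHecke S) (χ : ParChar N P),
        Φ (FreeAlgebra.lift ℤ (parTransfer hNS P) Q χ) =
          FreeAlgebra.lift ℤ (fun ℓ : AwayIdx S => heckeOperatorBar N ℓ.1) Q (Φ χ)) ∧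
      ∀ χ, Φ χ = 0 → (6 * N) • χ = 0 := by
  obtain ⟨Φ, hT, hker⟩ := exists_compareMap N P
  refine ⟨Φ, fun Q => ?_, hker⟩
  induction Q using FreeAlgebra.induction with
  | grade0 c => intro χ; simp
  | grade1 ℓ =>
    intro χ
    simp only [FreeAlgebra.lift_ι_apply]
    exact hT ℓ.1 (fun h => ℓ.2 (hNS _ ℓ.1.2 h)) χ _ rfl
  | add a b ha hb => intro χ; simp [ha, hb]
  | mul a b ha hb => intro χ; simp [ha, hb]

end Fermat.Agent.JacCompare
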