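import Fermat.Agent.ModularAnalytic.WeakField
import Fermat.Agent.KummerES.HeckeWeak
import Fermat.Agent.Hecke.NormIdentity
import Fermat.Agent.Hecke.Inputs
import Fermat.Agent.Hecke.Degree

/-!
# The Hecke product of functions is the norm of the correspondence

For a weakly holomorphic `f` on `Γ₀(N)` with coefficients in `ι(K)` the element of the function field
attached to `heckeProd f = ∏ₓ f (β x τ)` is `heckeNorm` of the element attached to `f`.
-/

set_option autoImplicit false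

noncomputable section

open Filter Complex ModularCurve CongruenceSubgroup
open UpperHalfPlane hiding I
open scoped Topology MatrixGroups Manifold OnePoint

namespace Fermat.Agent.JacCompare

open Fermat.Agent.ModularFunctionField Fermat.Agent.ModularAnalytic
open HeckeLattice (gamma0System rep Idx)

local notation "𝕢" => Function.Periodic.qParam

variable {N ℓ : ℕ} [NeZero N] [hℓ : Fact ℓ.Prime] (hℓN : ¬ ℓ ∣ N)

theorem tendsto_rep (x : Idx ℓ) : Tendsto (fun τ : ℍ => rep ℓ x • τ) atImInfty atImInfty := by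
  have : NeZero ℓ := ⟨hℓ.out.ne_zero⟩
  have hpos : (0 : ℝ) < ℓ := by exact_mod_cast hℓ.out.pos
  refine tendsto_comap_iff.mpr ?_
  cases x using OnePoint.rec with
  | infty =>
    have h : ∀ τ : ℍ, (rep ℓ (∞ : Idx ℓ) • τ).im = (ℓ : ℝ) * τ.im := fun τ => by
      show ((ModularForm.heckeDiagMatrix ℓ • τ : ℍ) : ℂ).im = _
      rw [ModularForm.coe_heckeDiagMatrix_smul hℓ.out.ne_zero]
      simp
    exact (tendsto_comap.const_mul_atTop hpos).congr fun τ => (h τ).symm
  | coe j =>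
    have h : ∀ τ : ℍ, (rep ℓ (j : Idx ℓ) • τ).im = (ℓ : ℝ)⁻¹ * τ.im := fun τ => by
      show ((ModularForm.heckeMatrix ℓ j.val • τ : ℍ) : ℂ).im = _
      rw [ModularForm.coe_heckeMatrix_smul hℓ.out.ne_zero, Complex.div_natCast_im]
      simp [-ZMod.natCast_val]
      ring
    exact (tendsto_comap.const_mul_atTop (inv_pos.mpr hpos)).congr fun τ => (h τ).symm

variable (ℓ) in
/-- `exp (2πi/ℓ)`. -/
abbrev zetaUnit : ℂˣ := rootUnit ℓ

theorem hasExp_rep_infty {f : ℍ → ℂ} {s : LaurentSeries ℂ} (hf : HasExp 1 f s) :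
    haveI : NeZero ℓ := ⟨hℓ.out.ne_zero⟩
    HasExp ℓ (fun τ => f (rep ℓ (∞ : Idx ℓ) • τ)) (qExpand ℂ (ℓ * ℓ) s) := by
  have : NeZero ℓ := ⟨hℓ.out.ne_zero⟩
  have := hf.comp (N := ℓ) (fun τ => rep ℓ (∞ : Idx ℓ) • τ) (tendsto_rep _) 1 (ℓ * ℓ) fun τ => ?_
  · rwa [subst_one] at this
  · show 𝕢 ((1 : ℕ) : ℝ) ((ModularForm.heckeDiagMatrix ℓ • τ : ℍ) : ℂ) = _
    rw [ModularForm.coe_heckeDiagMatrix_smul hℓ.out.ne_zero, Units.val_one, one_mul,
      Function.Periodic.qParam, Function.Periodic.qParam, ← Complex.exp_nat_mul]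
    congr 1
    have : (ℓ : ℂ) ≠ 0 := by exact_mod_cast hℓ.out.ne_zero
    push_cast
    field_simp

theorem hasExp_rep_coe {f : ℍ → ℂ} {s : LaurentSeries ℂ} (hf : HasExp 1 f s) (j : ZMod ℓ) :
    HasExp ℓ (fun τ => f (rep ℓ (j : Idx ℓ) • τ))
      (ModularFunctionField.twist (zetaUnit ℓ ^ j.val) s) := by
  have := hf.comp (N := ℓ) (fun τ => rep ℓ (j : Idx ℓ) • τ) (tendsto_rep _)
    (zetaUnit ℓ ^ j.val) 1 fun τ => ?_
  · rwa [subst_apply, qExpand_one_apply] at this
  · show 𝕢 ((1 : ℕ) : ℝ) ((ModularForm.heckeMatrix ℓ j.val • τ : ℍ) : ℂ) = _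
    rw [ModularForm.coe_heckeMatrix_smul hℓ.out.ne_zero, pow_one, Units.val_pow_eq_pow_val,
      show ((zetaUnit ℓ : ℂˣ) : ℂ) = Complex.exp (2 * Real.pi * I / ℓ) from rfl, Function.Periodic.qParam, Function.Periodic.qParam,
      ← Complex.exp_nat_mul, ← Complex.exp_add]
    congr 1
    have : (ℓ : ℂ) ≠ 0 := by exact_mod_cast hℓ.out.ne_zero
    push_cast
    field_simp
    ring

omit [NeZero N] in
/-- The expansion at infinity of `∏ₓ f (β x τ)` in the parameter of width `ℓ`. -/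
theorem hasExp_heckeProd {f : ℍ → ℂ} {s : LaurentSeries ℂ} (hf : HasExp 1 f s) :
    haveI : NeZero ℓ := ⟨hℓ.out.ne_zero⟩
    HasExp ℓ (KummerES.heckeProd (gamma0System N ℓ hℓN) f)
      (qExpand ℂ (ℓ * ℓ) s *
        ∏ i ∈ Finset.range ℓ, ModularFunctionField.twist (zetaUnit ℓ ^ i) s) := by
  have : NeZero ℓ := ⟨hℓ.out.ne_zero⟩
  have h := (hasExp_rep_infty hf).mul (HasExp.prod (Finset.univ : Finset (ZMod ℓ))
    (fun j _ => hasExp_rep_coe hf j))
  refine (h.congr fun τ => ?_).congr_series ?_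
  · show _ = ∏ x : Idx ℓ, f (rep ℓ x • τ)
    exact (Fintype.prod_option (fun x : Option (ZMod ℓ) => f (rep ℓ x • τ))).symm
  · congr 1
    exact Finset.prod_nbij (fun j : ZMod ℓ => j.val)
      (fun j _ => Finset.mem_range.mpr (ZMod.val_lt j))
      ((ZMod.val_injective ℓ).injOn)
      (fun i hi => ⟨(i : ZMod ℓ), Finset.mem_coe.mpr (Finset.mem_univ _),
        ZMod.val_cast_of_lt (Finset.mem_range.mp hi)⟩)
      (fun j _ => rfl)

variable {K : Type*} [Field K] [Algebra ℚ K] [IsAlgClosed K] [CharZero K] (ι : K →+* ℂ)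
variable {L : ℕ} [NeZero L]

local notation "W" => KummerES.weak (Gamma0 N) L ι.range

/-- The Hecke product of a weakly holomorphic function on `Γ₀(N)`. -/
def heckeWeak (hNL : N ∣ L) (f : W) : W :=
  ⟨KummerES.heckeProd (gamma0System N ℓ hℓN) f.1, by
    have hle : CongruenceSubgroup.Gamma L ≤ Gamma0 N := fun γ hγ => by
      rw [Gamma_mem] at hγ
      rw [Gamma0_mem]
      have := congrArg (ZMod.castHom hNL (ZMod N)) hγ.2.2.1
      rwa [map_intCast, map_zero] at this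
    have : NeZero (L * ℓ) := ⟨Nat.mul_ne_zero (NeZero.ne L) hℓ.out.ne_zero⟩
    have hζ : KummerES.zetaC (L * ℓ) ∈ ι.range :=
      mem_range_of_pow_eq_one ι (KummerES.isPrimitiveRoot_zetaC (L * ℓ)).pow_eq_one
    have h := KummerES.heckeProd_mem_weak (D := gamma0System N ℓ hℓN)
      (KummerES.isStandard_gamma0 hℓN) hle hζ
      (KummerES.weak_mono hle le_rfl f.2) f.2.2.1
    exact ⟨h.1, fun γ hγ => KummerES.comp_heckeProd_eq (D := gamma0System N ℓ hℓN) f.2.2.1 hγ, h.2.2⟩⟩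

/-- **The Hecke product is the norm of the correspondence.** -/
theorem toField_heckeWeak (hNL : N ∣ L) (f : W)
    (hdeg : haveI : NeZero ℓ := ⟨hℓ.out.ne_zero⟩;
      AlgebraicCurve.finrankAlong K (heckeAlphaBar K N ℓ) = ℓ + 1) :
    haveI : NeZero ℓ := ⟨hℓ.out.ne_zero⟩
    toField N L ι (heckeWeak hℓN ι hNL f) = Hecke.heckeNorm K N ℓ (toField N L ι f) := by
  have : NeZero ℓ := ⟨hℓ.out.ne_zero⟩
  set x : LaurentSeries K :=
    ((toField N L ι f : laurentBaseChange K (modularFunctionFieldFull N)) : LaurentSeries K)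
  -- width one expansion of `f`
  have hs1 : HasExp 1 f.1 (coeffMap ι x) := by
    have hfL : KummerES.HasExp L f.1 (qExpand ℂ L (coeffMap ι x)) := by
      rw [qExpand_coeffMap_toField]
      simpa using KummerES.hasExp_expansion f.2 1
    have hT : KummerES.comp f.1 ModularGroup.T = f.1 := f.2.2.1 _ (by
      rw [Gamma0_mem]; simp [ModularGroup.T])
    obtain ⟨t, ht, htq⟩ := KummerES.exists_hasExp_one hfL hT
    rw [qExpand_injective L htq] at ht
    exact hasExp_of_kummer ht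
  obtain ⟨ζ, hζ⟩ : ∃ ζ : Kˣ, Units.map (ι : K →* ℂ) ζ = zetaUnit ℓ := by
    obtain ⟨a, ha⟩ := mem_range_of_pow_eq_one ι (n := ℓ) (z := (rootUnit ℓ : ℂ)) (by
      rw [← Units.val_pow_eq_pow_val, (isPrimitiveRoot_rootUnit ℓ).pow_eq_one, Units.val_one])
    refine ⟨Units.mk0 a fun h0 => (rootUnit ℓ).ne_zero (by rw [← ha, h0, map_zero]), Units.ext ?_⟩
    exact ha
  have hζp : IsPrimitiveRoot ζ ℓ := IsPrimitiveRoot.of_map_of_injective
    (f := Units.map (ι : K →* ℂ)) (hζ ▸ isPrimitiveRoot_rootUnit ℓ)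
    (Units.map_injective ι.injective)
  have hid : qExpand ℂ ℓ (coeffMap ι (Hecke.heckeNorm K N ℓ (toField N L ι f) : LaurentSeries K)) =
      qExpand ℂ (ℓ * ℓ) (coeffMap ι x) *
        ∏ i ∈ Finset.range ℓ, ModularFunctionField.twist (zetaUnit ℓ ^ i) (coeffMap ι x) := by
    rw [← coeffMap_qExpand', Hecke.qExpand_heckeNorm_of_degree hℓ.out hℓN hdeg hζp, map_mul,
      map_prod, coeffMap_qExpand']
    refine congrArg (_ * ·) (Finset.prod_congr rfl fun i _ => ?_)
    rw [coeffMap_twist, map_pow, hζ]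
  have hF : HasExp ℓ (heckeWeak hℓN ι hNL f).1
      (qExpand ℂ ℓ (coeffMap ι (Hecke.heckeNorm K N ℓ (toField N L ι f) : LaurentSeries K))) :=
    (hasExp_heckeProd hℓN hs1).congr_series hid.symm
  -- compare in width `L`
  have hT : KummerES.comp (heckeWeak hℓN ι hNL f).1 ModularGroup.T = (heckeWeak hℓN ι hNL f).1 :=
    (heckeWeak hℓN ι hNL f).2.2.1 _ (by rw [Gamma0_mem]; simp [ModularGroup.T])
  obtain ⟨t, ht, htq⟩ := KummerES.exists_hasExp_one
    (kummer_of_hasExp (heckeWeak hℓN ι hNL f).2.1 hF) hT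
  rw [qExpand_injective ℓ htq] at ht
  exact Subtype.ext (toField_eq N L ι ((hasExp_of_kummer ht).qExpand L (one_mul L).symm one_ne_zero))

/-- `toField_heckeWeak` over `ℚ̄`. -/
theorem toField_heckeWeak_bar (ι : AlgebraicClosure ℚ →+* ℂ) (hNL : N ∣ L)
    (f : KummerES.weak (Gamma0 N) L ι.range) :
    haveI : NeZero ℓ := ⟨hℓ.out.ne_zero⟩
    toField N L ι (heckeWeak hℓN ι hNL f) =
      Hecke.heckeNorm (AlgebraicClosure ℚ) N ℓ (toField N L ι f) :=
  haveI : NeZero ℓ := ⟨hℓ.out.ne_zero⟩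
  toField_heckeWeak hℓN ι hNL f (Hecke.finrankAlong_alpha N ℓ hℓ.out hℓN)

end Fermat.Agent.JacCompare
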