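import Fermat.Agent.HeckeCohom.Systems
import Fermat.Agent.HeckeDatum.Operators
import Fermat.Agent.KummerES.AssemblyTate
import Fermat.Agent.S21

/-!
# Parabolic characters, their rank and their Hecke relations

By Eichler–Shimura the rank of the universal parabolic group of `Γ₀(N)` is twice the dimension of
the space of cusp forms, and a formal Hecke operator vanishing on cusp forms kills all parabolic
characters up to a fixed nonzero integer.
-/

set_option autoImplicit false

noncomputable section

open CongruenceSubgroup ModularCurve ModularCurve.Period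
open scoped MatrixGroups

namespace Fermat.Agent.JacCompare

open Fermat.Agent.HeckeLattice
open HeckeDatum (ParChar parTransfer coe_lift_parTransfer)
open KummerES.Tate (rk coord dual expand coord_dual coord_isParabolicHom freeBasis)

variable {N : ℕ} [NeZero N] {S : Set ℕ} (hNS : ∀ q : ℕ, q.Prime → q ∣ N → q ∈ S)

/-- Formal Hecke operators on the Eichler–Shimura pairing. -/
theorem transferAct_periodHomPair (Q : FreeHecke S) :
    ∀ p : CuspForm (Gamma0 N) 2 × CuspForm (Gamma0 N) 2,
      transferAct hNS ℂ Q (periodHomPair N p) =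
        periodHomPair N ((evalFree hNS Q : Module.End ℂ (CuspForm (Gamma0 N) 2)) p.1,
          (evalFree hNS Q : Module.End ℂ (CuspForm (Gamma0 N) 2)) p.2) := by
  induction Q using FreeAlgebra.induction with
  | grade0 r =>
    intro p
    simp only [AlgHom.commutes, Module.algebraMap_end_apply, Subalgebra.coe_algebraMap]
    exact (map_zsmul (periodHomPair N) r p).symm
  | grade1 ℓ =>
    intro p
    have := Fact.mk ℓ.1.2
    simpa [transferAct, evalFree] using
      (HeckeCohom.periodHomPair_heckeTLin ℓ.1.2 (fun h => ℓ.2 (hNS _ ℓ.1.2 h)) p).symm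
  | add a b ha hb =>
    intro p
    simp only [map_add, LinearMap.add_apply, ha, hb]
    rw [← map_add (periodHomPair N)]
    rfl
  | mul a b ha hb =>
    intro p
    simp only [map_mul, Module.End.mul_apply, ha, hb]
    rfl

/-- An operator vanishing on cusp forms kills complex parabolic homomorphisms. -/
theorem transferAct_complex_eq_zero {Q : FreeHecke S} (hQ : evalFree hNS Q = 0)
    {φ : Additive (Gamma0 N) →+ ℂ} (hφ : IsParabolicHom (Gamma0 N) φ) :
    transferAct hNS ℂ Q φ = 0 := by
  obtain ⟨p, rfl⟩ : φ ∈ LinearMap.range (periodHomPair N) := by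
    rw [(S21.result N).2]; exact hφ
  rw [transferAct_periodHomPair, hQ]
  exact map_zero (periodHomPair N)

/-- An operator vanishing on cusp forms sends the universal parabolic homomorphism to torsion. -/
theorem transferAct_parHom_mem_torsion {Q : FreeHecke S} (hQ : evalFree hNS Q = 0)
    (γ : Additive (Gamma0 N)) :
    transferAct hNS (ParGroup N) Q (parHom N) γ ∈ Submodule.torsion ℤ (ParGroup N) := by
  set a := transferAct hNS (ParGroup N) Q (parHom N) γ
  rw [← Submodule.Quotient.mk_eq_zero]
  refine (freeBasis N).ext_elem fun i => ?_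
  rw [map_zero, Finsupp.zero_apply]
  set g : ParGroup N →+ ℂ := (Int.castAddHom ℂ).comp
    (((freeBasis N).coord i).comp (Submodule.mkQ _)).toAddMonoidHom with hg
  have hpar : IsParabolicHom (Gamma0 N) (g.comp (parHom N)) := fun δ hδ => by
    rw [AddMonoidHom.comp_apply, parHom_isParabolicHom N δ hδ, map_zero]
  have h := DFunLike.congr_fun (comp_transferAct hNS g Q (parHom N)) γ
  rw [transferAct_complex_eq_zero hNS hQ hpar] at h
  have h' : (((freeBasis N).coord i (Submodule.Quotient.mk a) : ℤ) : ℂ) = 0 := h
  exact_mod_cast h'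

/-- An operator vanishing on cusp forms kills parabolic characters up to a fixed integer. -/
theorem exists_nsmul_lift_eq_zero :
    ∃ e : ℕ, e ≠ 0 ∧ ∀ Q : FreeHecke S, evalFree hNS Q = 0 → ∀ (n : ℕ) (χ : ParChar N n),
      e • FreeAlgebra.lift ℤ (parTransfer hNS n) Q χ = 0 := by
  have : Finite (Submodule.torsion ℤ (ParGroup N)) := by
    have : Module.Finite ℤ (Submodule.torsion ℤ (ParGroup N)) := inferInstance
    exact Module.finite_of_fg_torsion _ Submodule.torsion_isTorsion
  refine ⟨Nat.card (Submodule.torsion ℤ (ParGroup N)), Nat.card_pos.ne', fun Q hQ n χ => ?_⟩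
  refine Subtype.ext (AddMonoidHom.ext fun γ => ?_)
  rw [Submodule.coe_smul_of_tower, AddMonoidHom.nsmul_apply, coe_lift_parTransfer,
    ← factor_comp_parHom χ.1 χ.2, ← comp_transferAct, AddMonoidHom.comp_apply, ← map_nsmul]
  have h : Nat.card (Submodule.torsion ℤ (ParGroup N)) •
      (⟨_, transferAct_parHom_mem_torsion hNS hQ γ⟩ : Submodule.torsion ℤ (ParGroup N)) = 0 :=
    card_nsmul_eq_zero'
  have h' := congrArg Subtype.val h
  rw [Submodule.coe_smul_of_tower] at h'
  exact (congrArg _ h').trans (map_zero _)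

variable (N)

/-- A parabolic homomorphism to `ℂ` is given by its values at the dual elements. -/
def parEquiv : parabolicHoms ℂ (Gamma0 N) ℂ ≃ₗ[ℂ] (Fin (rk N) → ℂ) where
  toFun x i := x.1 (dual N i)
  map_add' _ _ := rfl
  map_smul' _ _ := rfl
  invFun c := ⟨∑ i, c i • (Int.castAddHom ℂ).comp (coord N i), Submodule.sum_mem _ fun i _ =>
    Submodule.smul_mem _ _ fun γ hγ => by
      rw [AddMonoidHom.comp_apply, coord_isParabolicHom N i γ hγ, map_zero]⟩
  left_inv x := Subtype.ext (AddMonoidHom.ext fun δ => by
    have hB : ∀ (n : ℤ) (b : ℂ), n ≠ 0 → n • b = 0 → b = 0 :=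
      fun n b hn h => (smul_eq_zero.mp h).resolve_left hn
    rw [expand hB x.1 x.2 δ]
    simp [AddMonoidHom.finsetSum_apply, mul_comm])
  right_inv c := funext fun j => by
    simp [AddMonoidHom.finsetSum_apply, coord_dual]

/-- The rank of the universal parabolic group is twice the dimension of the cusp forms. -/
theorem rk_eq : rk N = 2 * Module.finrank ℂ (CuspForm (Gamma0 N) 2) := by
  have := EichlerShimura.finiteDimensional_cuspForm_two N
  have h1 := LinearMap.finrank_range_of_inj (S21.result N).1
  rw [(S21.result N).2, (parEquiv N).finrank_eq, Module.finrank_fin_fun, Module.finrank_prod] at h1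
  omega

omit [NeZero N] in
/-- Parabolic characters agreeing on generators are equal. -/
theorem parChar_ext {N n : ℕ} {s : Set (Gamma0 N)} (hs : Subgroup.closure s = ⊤) {χ ψ : ParChar N n}
    (h : ∀ x ∈ s, χ.1 (Additive.ofMul x) = ψ.1 (Additive.ofMul x)) : χ = ψ :=
  Subtype.ext (AddMonoidHom.toMultiplicativeRight.injective
    (MonoidHom.eq_of_eqOn_dense hs fun x hx => congrArg Multiplicative.ofAdd (h x hx)))

/-- Parabolic characters modulo `n` are finitely many, at least `n ^ rk`. -/
theorem pow_rk_le_card (n : ℕ) [NeZero n] :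
    Finite (ParChar N n) ∧ n ^ rk N ≤ Nat.card (ParChar N n) := by
  obtain ⟨s, hs, hfs⟩ := Group.fg_iff.mp (inferInstance : Group.FG (Gamma0 N))
  have hfin : Finite (ParChar N n) := by
    have := hfs.to_subtype
    exact Finite.of_injective (fun χ (x : s) => χ.1 (Additive.ofMul (x : Gamma0 N)))
      fun χ ψ h => parChar_ext hs fun x hx => congrFun h ⟨x, hx⟩
  refine ⟨hfin, ?_⟩
  let f : (Fin (rk N) → ZMod n) → ParChar N n := fun c =>
    ⟨∑ i, (c i).val • (Int.castAddHom (ZMod n)).comp (coord N i), Submodule.sum_mem _ fun i _ =>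
      nsmul_mem (fun γ hγ => by
        rw [AddMonoidHom.comp_apply, coord_isParabolicHom N i γ hγ, map_zero]) _⟩
  have hf : Function.Injective f := fun c c' h => funext fun j => by
    have := DFunLike.congr_fun (congrArg Subtype.val h) (dual N j)
    simpa [f, AddMonoidHom.finsetSum_apply, coord_dual] using this
  have := Nat.card_le_card_of_injective f hf
  rwa [Nat.card_fun, Nat.card_zmod, Nat.card_fin] at this

/-- The parabolic characters killed by `d` are boundedly many, uniformly in the modulus. -/
theorem exists_card_le_of_nsmul {d : ℕ} (hd : d ≠ 0) :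
    ∃ B : ℕ, B ≠ 0 ∧ ∀ (n : ℕ) [NeZero n] (H : AddSubgroup (ParChar N n)),
      (∀ χ ∈ H, d • χ = 0) → Nat.card H ≤ B := by
  classical
  obtain ⟨s, hs, hfs⟩ := Group.fg_iff.mp (inferInstance : Group.FG (Gamma0 N))
  have := hfs.to_subtype
  refine ⟨d ^ Nat.card s, pow_ne_zero _ hd, fun n _ H hH => ?_⟩
  have hcard : Nat.card {x : ZMod n // d • x = 0} ≤ d := by
    rw [Nat.card_eq_fintype_card, Fintype.card_subtype]
    exact IsAddCyclic.card_nsmul_eq_zero_le (Nat.pos_of_ne_zero hd)
  refine (Nat.card_le_card_of_injective (fun (χ : H) (x : s) =>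
    (⟨χ.1.1 (Additive.ofMul (x : Gamma0 N)),
      DFunLike.congr_fun (congrArg Subtype.val (hH χ.1 χ.2)) _⟩ : {x : ZMod n // d • x = 0}))
    fun χ ψ h => Subtype.ext (parChar_ext hs fun x hx => congrArg Subtype.val (congrFun h ⟨x, hx⟩))).trans ?_
  rw [Nat.card_fun]
  exact Nat.pow_le_pow_left hcard _

end Fermat.Agent.JacCompare
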